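import Fermat.Prelude.Def_CuspForm_HeckeLocal
import Fermat.Prelude.Def_CuspForm_HeckeGaloisRepDatum

/-!
# S59, layer L1 (Hecke datum), piece HL-CORE (helper7)

For the Prelude ring `T := CuspForm.heckeLocal N S 𝒪 θ` (localisation of `𝒪 ⊗ heckeLatticeAlgebra`
at the maximal ideal cut out by `θ`) and `π := CuspForm.heckeLocal.π`, we prove the four algebraic
fields of `CuspForm.HeckeGaloisRepDatum`:

* `residue_π`          : `residue (π t) = ResidueField.map (algebraMap 𝒪 T) (θ t)`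
* `adjoin_range_π`     : `Algebra.adjoin 𝒪 (range π) = ⊤`
* `exists_point`       : every `χ : 𝕋 →+* 𝒪` lifting `θ` factors through `T`
* `residue_surjective` : `𝒪 → T → residue field` is onto

and package them: `datumOfRep` builds a `HeckeGaloisRepDatum` from a Galois representation over `T`
with the right Frobenius characteristic polynomials.
-/

set_option autoImplicit false
set_option synthInstance.maxHeartbeats 400000
set_option maxHeartbeats 1000000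
set_option linter.unusedSectionVars false

noncomputable section

namespace Fermat.Agent.S59.H7

open CuspForm IsLocalRing
open scoped TensorProduct

variable (N : ℕ) [NeZero N] (S : Set ℕ)
variable (𝒪 : Type) [CommRing 𝒪] [IsDomain 𝒪] [IsDiscreteValuationRing 𝒪]
  [IsAdicComplete (IsLocalRing.maximalIdeal 𝒪) 𝒪]
variable (θ : heckeAlgebra N 2 S →+* IsLocalRing.ResidueField 𝒪)
variable [Fact (HasIntegralStructure N 2)]

/-- `B → T` is surjective (`B = 𝒪 ⊗ heckeLatticeAlgebra` is a finite product of its localisations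
at maximal ideals, `𝒪` being complete). -/
theorem algebraMap_base_surjective :
    Function.Surjective (algebraMap (heckeBaseAlgebra N S 𝒪) (heckeLocal N S 𝒪 θ)) := by
  classical
  have : Module.Finite 𝒪 (heckeBaseAlgebra N S 𝒪) :=
    inferInstanceAs (Module.Finite 𝒪 (𝒪 ⊗[ℤ] ↥(heckeLatticeAlgebra N S)))
  set P : MaximalSpectrum (heckeBaseAlgebra N S 𝒪) :=
    ⟨heckeLocalIdeal N S 𝒪 θ, heckeLocalIdeal.instIsMaximal N S 𝒪 θ⟩ with hP
  obtain ⟨-, hbij, -, -⟩ :=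
    Algebra.finite_maximalSpectrum_and_bijective_localization_of_module_finite (𝒪 := 𝒪)
      (heckeBaseAlgebra N S 𝒪)
  have hsurjP : Function.Surjective
      (algebraMap (heckeBaseAlgebra N S 𝒪) (Localization.AtPrime P.asIdeal)) := by
    intro z
    obtain ⟨b, hb⟩ := hbij.2 (Function.update 0 P z)
    refine ⟨b, ?_⟩
    have h := congrFun hb P
    simp only [Function.update_self] at h
    exact h
  let e := IsLocalization.algEquiv (heckeLocalIdeal N S 𝒪 θ).primeCompl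
    (Localization.AtPrime (heckeLocalIdeal N S 𝒪 θ)) (heckeLocal N S 𝒪 θ)
  intro z
  obtain ⟨b, hb⟩ := hsurjP (e.symm z)
  refine ⟨b, ?_⟩
  have h1 : e (algebraMap (heckeBaseAlgebra N S 𝒪)
      (Localization.AtPrime (heckeLocalIdeal N S 𝒪 θ)) b) =
      algebraMap (heckeBaseAlgebra N S 𝒪) (heckeLocal N S 𝒪 θ) b := e.commutes b
  rw [← h1]
  have h2 : algebraMap (heckeBaseAlgebra N S 𝒪)
      (Localization.AtPrime (heckeLocalIdeal N S 𝒪 θ)) b = e.symm z := hb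
  rw [h2, AlgEquiv.apply_symm_apply]

/-- Membership in the maximal ideal of `T`, tested on `B`. -/
theorem algebraMap_base_mem_maximalIdeal_iff (b : heckeBaseAlgebra N S 𝒪) :
    algebraMap (heckeBaseAlgebra N S 𝒪) (heckeLocal N S 𝒪 θ) b ∈
        maximalIdeal (heckeLocal N S 𝒪 θ) ↔ b ∈ heckeLocalIdeal N S 𝒪 θ :=
  IsLocalization.AtPrime.to_map_mem_maximal_iff (heckeLocal N S 𝒪 θ) (heckeLocalIdeal N S 𝒪 θ) b _

/-- Membership in the maximal ideal of `T`, tested on `𝒪 ⊗ 𝕋`. -/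
theorem mem_maximalIdeal_iff (x : 𝒪 ⊗[ℤ] ↥(heckeAlgebra N 2 S)) :
    algebraMap (heckeBaseAlgebra N S 𝒪) (heckeLocal N S 𝒪 θ) (latticeBaseChange N S 𝒪 x) ∈
        maximalIdeal (heckeLocal N S 𝒪 θ) ↔ residualCharacter N S 𝒪 θ x = 0 := by
  rw [algebraMap_base_mem_maximalIdeal_iff, ← mem_heckeCharKernel_iff, ← Ideal.mem_comap,
    comap_heckeLocalIdeal N S 𝒪 θ (ker_latticeBaseChange_le_heckeCharKernel N S 𝒪 θ)]

theorem π_eq (t : ↥(heckeAlgebra N 2 S)) :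
    heckeLocal.π N S 𝒪 θ t =
      algebraMap (heckeBaseAlgebra N S 𝒪) (heckeLocal N S 𝒪 θ)
        (latticeBaseChange N S 𝒪 ((1 : 𝒪) ⊗ₜ[ℤ] t)) := rfl

theorem algebraMap_eq (a : 𝒪) :
    algebraMap 𝒪 (heckeLocal N S 𝒪 θ) a =
      algebraMap (heckeBaseAlgebra N S 𝒪) (heckeLocal N S 𝒪 θ)
        (latticeBaseChange N S 𝒪 (algebraMap 𝒪 (𝒪 ⊗[ℤ] ↥(heckeAlgebra N 2 S)) a)) := by
  rw [latticeBaseChange_algebraMap]
  exact IsScalarTower.algebraMap_apply 𝒪 (heckeBaseAlgebra N S 𝒪) (heckeLocal N S 𝒪 θ) a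

/-- Field `residue_π` of `HeckeGaloisRepDatum`. -/
theorem residue_π (t : ↥(heckeAlgebra N 2 S)) :
    IsLocalRing.residue (heckeLocal N S 𝒪 θ) (heckeLocal.π N S 𝒪 θ t) =
      IsLocalRing.ResidueField.map (algebraMap 𝒪 (heckeLocal N S 𝒪 θ)) (θ t) := by
  obtain ⟨a, ha⟩ := IsLocalRing.residue_surjective (θ t)
  rw [← ha, IsLocalRing.ResidueField.map_residue, ← sub_eq_zero, ← map_sub,
    IsLocalRing.residue_eq_zero_iff, π_eq, algebraMap_eq, ← map_sub, ← map_sub,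
    mem_maximalIdeal_iff, map_sub, residualCharacter_tmul, residualCharacter_algebraMap, map_one,
    one_mul, ha, sub_self]

/-- Every element of `T` is congruent to an element of `𝒪` modulo the maximal ideal. -/
theorem exists_sub_mem_maximalIdeal (z : heckeLocal N S 𝒪 θ) :
    ∃ a : 𝒪, z - algebraMap 𝒪 (heckeLocal N S 𝒪 θ) a ∈ maximalIdeal (heckeLocal N S 𝒪 θ) := by
  obtain ⟨b, rfl⟩ := algebraMap_base_surjective N S 𝒪 θ z
  obtain ⟨x, rfl⟩ := latticeBaseChange_surjective N S 𝒪 b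
  obtain ⟨a, ha⟩ := IsLocalRing.residue_surjective (residualCharacter N S 𝒪 θ x)
  refine ⟨a, ?_⟩
  rw [algebraMap_eq, ← map_sub, ← map_sub, mem_maximalIdeal_iff, map_sub,
    residualCharacter_algebraMap, ha, sub_self]

/-- Field `residue_surjective` of `HeckeGaloisRepDatum`. -/
theorem residue_surjective :
    Function.Surjective (IsLocalRing.residue (heckeLocal N S 𝒪 θ) ∘
      algebraMap 𝒪 (heckeLocal N S 𝒪 θ)) := by
  intro y
  obtain ⟨z, rfl⟩ := IsLocalRing.residue_surjective y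
  obtain ⟨a, ha⟩ := exists_sub_mem_maximalIdeal N S 𝒪 θ z
  refine ⟨a, ?_⟩
  rw [Function.comp_apply]
  have := (IsLocalRing.residue_eq_zero_iff _).mpr ha
  rw [map_sub, sub_eq_zero] at this
  exact this.symm

/-- Field `adjoin_range_π` of `HeckeGaloisRepDatum`. -/
theorem adjoin_range_π :
    Algebra.adjoin 𝒪 (Set.range (heckeLocal.π N S 𝒪 θ)) = ⊤ := by
  rw [eq_top_iff]
  rintro z -
  obtain ⟨b, rfl⟩ := algebraMap_base_surjective N S 𝒪 θ z
  obtain ⟨x, rfl⟩ := latticeBaseChange_surjective N S 𝒪 b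
  induction x using TensorProduct.induction_on with
  | zero =>
    rw [map_zero, map_zero]
    exact Subalgebra.zero_mem _
  | tmul a t =>
    have h1 : (a ⊗ₜ[ℤ] t : 𝒪 ⊗[ℤ] ↥(heckeAlgebra N 2 S)) =
        algebraMap 𝒪 (𝒪 ⊗[ℤ] ↥(heckeAlgebra N 2 S)) a * ((1 : 𝒪) ⊗ₜ[ℤ] t) := by
      rw [Algebra.TensorProduct.algebraMap_apply, Algebra.algebraMap_self, RingHom.id_apply,
        Algebra.TensorProduct.tmul_mul_tmul, mul_one, one_mul]
    rw [h1, map_mul, map_mul, ← algebraMap_eq, ← π_eq]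
    exact Subalgebra.mul_mem _ (Subalgebra.algebraMap_mem _ a)
      (Algebra.subset_adjoin ⟨t, rfl⟩)
  | add x y hx hy =>
    rw [map_add, map_add]
    exact Subalgebra.add_mem _ hx hy

/-- The `𝒪`-algebra map `𝒪 ⊗ 𝕋 → 𝒪`, `a ⊗ t ↦ a * χ t`. -/
def pointTensor (χ : heckeAlgebra N 2 S →+* 𝒪) : (𝒪 ⊗[ℤ] ↥(heckeAlgebra N 2 S)) →ₐ[𝒪] 𝒪 :=
  Algebra.TensorProduct.lift (AlgHom.id 𝒪 𝒪) χ.toIntAlgHom (fun _ _ => Commute.all _ _)

theorem pointTensor_tmul (χ : heckeAlgebra N 2 S →+* 𝒪) (a : 𝒪) (t : ↥(heckeAlgebra N 2 S)) :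
    pointTensor N S 𝒪 χ (a ⊗ₜ[ℤ] t) = a * χ t := by
  simp [pointTensor]

theorem residue_pointTensor (χ : heckeAlgebra N 2 S →+* 𝒪)
    (hχ : ∀ t : heckeAlgebra N 2 S, IsLocalRing.residue 𝒪 (χ t) = θ t)
    (x : 𝒪 ⊗[ℤ] ↥(heckeAlgebra N 2 S)) :
    IsLocalRing.residue 𝒪 (pointTensor N S 𝒪 χ x) = residualCharacter N S 𝒪 θ x := by
  induction x using TensorProduct.induction_on with
  | zero => rw [map_zero, map_zero, map_zero]
  | tmul a t => rw [pointTensor_tmul, map_mul, hχ, residualCharacter_tmul]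
  | add x y hx hy => rw [map_add, map_add, map_add, hx, hy]

/-- `latticeBaseChange` as a ring isomorphism (under `HasIntegralStructure`). -/
def latticeBaseChangeEquiv :
    (𝒪 ⊗[ℤ] ↥(heckeAlgebra N 2 S)) ≃+* heckeBaseAlgebra N S 𝒪 :=
  RingEquiv.ofBijective (latticeBaseChange N S 𝒪)
    ⟨latticeBaseChange_injective N S 𝒪 Fact.out, latticeBaseChange_surjective N S 𝒪⟩

theorem latticeBaseChangeEquiv_symm_apply (x : 𝒪 ⊗[ℤ] ↥(heckeAlgebra N 2 S)) :
    (latticeBaseChangeEquiv N S 𝒪).symm (latticeBaseChange N S 𝒪 x) = x :=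
  (latticeBaseChangeEquiv N S 𝒪).symm_apply_apply x

/-- The ring map `B → 𝒪` induced by `χ`. -/
def pointBase (χ : heckeAlgebra N 2 S →+* 𝒪) : heckeBaseAlgebra N S 𝒪 →+* 𝒪 :=
  (pointTensor N S 𝒪 χ).toRingHom.comp (latticeBaseChangeEquiv N S 𝒪).symm.toRingHom

theorem pointBase_latticeBaseChange (χ : heckeAlgebra N 2 S →+* 𝒪)
    (x : 𝒪 ⊗[ℤ] ↥(heckeAlgebra N 2 S)) :
    pointBase N S 𝒪 χ (latticeBaseChange N S 𝒪 x) = pointTensor N S 𝒪 χ x := by
  change pointTensor N S 𝒪 χ ((latticeBaseChangeEquiv N S 𝒪).symm (latticeBaseChange N S 𝒪 x)) = _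
  rw [latticeBaseChangeEquiv_symm_apply]

theorem isUnit_pointBase (χ : heckeAlgebra N 2 S →+* 𝒪)
    (hχ : ∀ t : heckeAlgebra N 2 S, IsLocalRing.residue 𝒪 (χ t) = θ t)
    (y : heckeLocalSubmonoid N S 𝒪 θ) : IsUnit (pointBase N S 𝒪 χ y) := by
  obtain ⟨y, a, ha, rfl⟩ := y
  change IsUnit (pointBase N S 𝒪 χ (latticeBaseChange N S 𝒪 a))
  rw [pointBase_latticeBaseChange]
  by_contra hu
  have hm : pointTensor N S 𝒪 χ a ∈ maximalIdeal 𝒪 := (IsLocalRing.mem_maximalIdeal _).mpr hu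
  rw [← IsLocalRing.residue_eq_zero_iff, residue_pointTensor N S 𝒪 θ χ hχ] at hm
  exact Ideal.mem_primeCompl_iff.mp ha ((mem_heckeCharKernel_iff N S 𝒪 θ a).mpr hm)

/-- The ring map `T → 𝒪` induced by a lift `χ` of `θ`. -/
def pointLocal (χ : heckeAlgebra N 2 S →+* 𝒪)
    (hχ : ∀ t : heckeAlgebra N 2 S, IsLocalRing.residue 𝒪 (χ t) = θ t) :
    heckeLocal N S 𝒪 θ →+* 𝒪 :=
  IsLocalization.lift (M := heckeLocalSubmonoid N S 𝒪 θ) (S := heckeLocal N S 𝒪 θ)
    (g := pointBase N S 𝒪 χ) (isUnit_pointBase N S 𝒪 θ χ hχ)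

theorem pointLocal_algebraMap (χ : heckeAlgebra N 2 S →+* 𝒪)
    (hχ : ∀ t : heckeAlgebra N 2 S, IsLocalRing.residue 𝒪 (χ t) = θ t)
    (b : heckeBaseAlgebra N S 𝒪) :
    pointLocal N S 𝒪 θ χ hχ (algebraMap (heckeBaseAlgebra N S 𝒪) (heckeLocal N S 𝒪 θ) b) =
      pointBase N S 𝒪 χ b :=
  IsLocalization.lift_eq _ b

/-- Field `exists_point` of `HeckeGaloisRepDatum`. -/
theorem exists_point (χ : heckeAlgebra N 2 S →+* 𝒪)
    (hχ : ∀ t : heckeAlgebra N 2 S, IsLocalRing.residue 𝒪 (χ t) = θ t) :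
    ∃ ψ : heckeLocal N S 𝒪 θ →ₐ[𝒪] 𝒪,
      ∀ t : heckeAlgebra N 2 S, ψ (heckeLocal.π N S 𝒪 θ t) = χ t := by
  refine ⟨{ pointLocal N S 𝒪 θ χ hχ with
    commutes' := fun a => ?_ }, fun t => ?_⟩
  · change pointLocal N S 𝒪 θ χ hχ (algebraMap 𝒪 (heckeLocal N S 𝒪 θ) a) = a
    rw [algebraMap_eq, pointLocal_algebraMap, pointBase_latticeBaseChange, AlgHom.commutes]
    rfl
  · change pointLocal N S 𝒪 θ χ hχ (heckeLocal.π N S 𝒪 θ t) = χ t
    rw [π_eq, pointLocal_algebraMap, pointBase_latticeBaseChange, pointTensor_tmul, one_mul]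

/-- **HL-CORE packaging.**  A Galois representation over `T = heckeLocal N S 𝒪 θ` with the right
Frobenius characteristic polynomials and absolutely irreducible residual representation is a
`HeckeGaloisRepDatum`. -/
def datumOfRep (ρ : GaloisRepAdic (heckeLocal N S 𝒪 θ))
    (hfrob : ∀ (ℓ : ℕ) (hℓ : ℓ.Prime) (hℓN : ¬ ℓ ∣ N) (hℓS : ℓ ∉ S),
      ∀ A : ValuationSubring (AlgebraicClosure ℚ), A.LiesOverPrime ℓ →
        ∀ σ : AlgebraicClosure ℚ ≃ₐ[ℚ] AlgebraicClosure ℚ, A.IsFrobeniusAt σ ℓ →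
          LinearMap.charpoly (ρ.ρ σ) =
            Polynomial.X ^ 2 -
              Polynomial.C (heckeLocal.π N S 𝒪 θ (heckeAlgebra.T hℓ hℓN hℓS)) * Polynomial.X +
              Polynomial.C ((ℓ : heckeLocal N S 𝒪 θ)))
    (habs : ρ.residual.IsAbsolutelyIrreducible) :
    HeckeGaloisRepDatum N S 𝒪 θ (heckeLocal N S 𝒪 θ) where
  π := heckeLocal.π N S 𝒪 θ
  residue_π := residue_π N S 𝒪 θ
  adjoin_range_π := adjoin_range_π N S 𝒪 θ
  exists_point := exists_point N S 𝒪 θ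
  residue_surjective := residue_surjective N S 𝒪 θ
  ρ := ρ
  charpoly_frob := hfrob
  residual_absIrr := habs

end Fermat.Agent.S59.H7
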