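import Fermat.Agent.Lib.Newform.H863.OldForms
import Fermat.Agent.Lib.Newform.H863.GoodEigen
import Fermat.Agent.S22

/-!
# S59, top layer, piece E1 (helper7): an integral character of the Hecke algebra is an eigenform

* `exists_eigenvector_of_intChar` : a ring homomorphism `χ : heckeAlgebra N 2 S →+* ℤ` occurs in
  `S₂(Γ₀(N))`: there is a nonzero common eigenvector with eigencharacter `χ`.
* `isModularModelOfLevel_of_intChar` : the statement `EigenformOfCharStatement` of the S59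
  architecture (`origin/helper239`, `Fermat/Agent/S59/H239/Top.lean`), in unfolded form.

No `p`-stabilisation is needed: the eigenvector is pushed to level `N * p` by the level inclusion
and the landed NEWFORM lemma `exists_normalizedEigenform_of_eigenvector` produces the normalised
eigenform there.
-/

set_option autoImplicit false

open CuspForm CongruenceSubgroup ModularFormClass Polynomial

namespace Fermat.Agent.S59.H7

/-- An eigencharacter `χ'` with `ker χ' ≤ ker χ`, `χ` integer valued, equals `χ`. -/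
theorem char_eq_of_ker_le {A : Type*} [CommRing A] (hint : ∀ a : A, IsIntegral ℤ a)
    (χ : A →+* ℤ) (χ' : A →+* ℂ) (hker : RingHom.ker χ' ≤ RingHom.ker χ) (t : A) :
    χ' t = (χ t : ℂ) := by
  set s : A := t - (χ t : A) with hs
  have hχs : χ s = 0 := by
    rw [hs, map_sub, map_intCast, Int.cast_id, sub_self]
  have hz : IsIntegral ℤ (χ' s) := (hint s).map χ'.toIntAlgHom
  suffices h : χ' s = 0 by
    rw [hs, map_sub, map_intCast, sub_eq_zero] at h
    exact h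
  by_contra hne
  have h0 : (minpoly ℚ (χ' s)).coeff 0 ≠ 0 := minpoly.coeff_zero_ne_zero hz.tower_top hne
  have hmap : minpoly ℚ (χ' s) = (minpoly ℤ (χ' s)).map (algebraMap ℤ ℚ) :=
    minpoly.isIntegrallyClosed_eq_field_fractions' ℚ hz
  have h0' : (minpoly ℤ (χ' s)).coeff 0 ≠ 0 := by
    intro h
    apply h0
    rw [hmap, coeff_map, h, map_zero]
  apply h0'
  have h1 : χ' (aeval s (minpoly ℤ (χ' s))) = 0 := by
    have := aeval_algHom_apply χ'.toIntAlgHom s (minpoly ℤ (χ' s))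
    rw [RingHom.toIntAlgHom_apply] at this
    rw [← RingHom.toIntAlgHom_apply χ', ← this, minpoly.aeval]
  have h2 : χ (aeval s (minpoly ℤ (χ' s))) = 0 := hker h1
  have h3 := aeval_algHom_apply χ.toIntAlgHom s (minpoly ℤ (χ' s))
  rw [RingHom.toIntAlgHom_apply, RingHom.toIntAlgHom_apply, h2, hχs] at h3
  rw [← h3, ← coeff_zero_eq_aeval_zero]

/-- **Characters occur.** A ring homomorphism from the (anemic) Hecke algebra to `ℤ` is the
eigencharacter of a nonzero cusp form. -/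
theorem exists_eigenvector_of_intChar {N : ℕ} [NeZero N] (S : Set ℕ)
    (χ : heckeAlgebra N 2 S →+* ℤ) :
    ∃ g : CuspForm (Gamma0 N) 2, g ≠ 0 ∧
      ∀ t : heckeAlgebra N 2 S,
        (t : Module.End ℂ (CuspForm (Gamma0 N) 2)) g = (χ t : ℂ) • g := by
  classical
  have := Fermat.Agent.Lib.Newform.H863.finiteDimensional_cuspForm N
  have hfin : Module.Finite ℤ (heckeAlgebra N 2 S) := Fermat.Agent.S22.result N 2 S
  have hint : ∀ a : heckeAlgebra N 2 S, IsIntegral ℤ a := fun a =>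
    (Algebra.IsIntegral.of_finite ℤ (heckeAlgebra N 2 S)).isIntegral a
  have : (RingHom.ker χ).IsPrime := RingHom.ker_isPrime χ
  obtain ⟨g, χ', hg, hχ', hker⟩ := Fermat.Agent.S49.exists_eigenvector_ker_le
    (K := ℂ) (V := CuspForm (Gamma0 N) 2)
    ((heckeAlgebra N 2 S).val.toRingHom) Subtype.val_injective (RingHom.ker χ)
  refine ⟨g, hg, fun t => ?_⟩
  rw [← char_eq_of_ker_le hint χ χ' hker t]
  exact hχ' t

/-- **E1** (`EigenformOfCharStatement` of the S59 architecture, unfolded). -/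
theorem isModularModelOfLevel_of_intChar
    (W : WeierstrassCurve ℤ) (N : ℕ) [NeZero N] (S : Finset ℕ) (p : ℕ) (hp : p.Prime)
    (_hS : ∀ ℓ ∈ S, ℓ.Prime) (hSN : ∀ ℓ ∈ S, ℓ = p ∨ ℓ ∣ N)
    (χ : CuspForm.heckeAlgebra N 2 (↑S : Set ℕ) →+* ℤ)
    (hχ : ∀ (ℓ : ℕ) (hℓ : ℓ.Prime) (hℓN : ¬ ℓ ∣ N) (hℓS : ℓ ∉ (↑S : Set ℕ)),
      χ (CuspForm.heckeAlgebra.T hℓ hℓN hℓS) = W.apOfModel ℓ) :
    W.IsModularModelOfLevel (if p ∣ N then N else N * p) := by
  classical
  obtain ⟨g, hg, hgχ⟩ := exists_eigenvector_of_intChar (↑S : Set ℕ) χ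
  have hgT : ∀ (ℓ : ℕ) (hℓ : ℓ.Prime) (hℓN : ¬ ℓ ∣ N), ℓ ∉ (↑S : Set ℕ) →
      CuspForm.heckeTLin 2 hℓ hℓN g = ((W.apOfModel ℓ : ℤ) : ℂ) • g := by
    intro ℓ hℓ hℓN hℓS
    have := hgχ (heckeAlgebra.T hℓ hℓN hℓS)
    rw [heckeAlgebra.coe_T, hχ ℓ hℓ hℓN hℓS] at this
    exact this
  by_cases hpN : p ∣ N
  · rw [if_pos hpN]
    obtain ⟨f, hf, hfℓ⟩ :=
      Fermat.Agent.Lib.Newform.H863.exists_normalizedEigenform_of_eigenvector
        (↑S : Set ℕ) (fun ℓ => ((W.apOfModel ℓ : ℤ) : ℂ)) g hg hgT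
    refine ⟨f, hf, fun ℓ hℓ _ hℓN => hfℓ ℓ hℓ hℓN ?_⟩
    intro hℓS
    rcases hSN ℓ (Finset.mem_coe.mp hℓS) with h | h
    · exact hℓN (h ▸ hpN)
    · exact hℓN h
  · rw [if_neg hpN]
    have hdvd : N ∣ N * p := Dvd.intro p rfl
    have : NeZero (N * p) := ⟨Nat.mul_ne_zero (NeZero.ne N) hp.ne_zero⟩
    set h := Fermat.Agent.Lib.Newform.H863.levelIncl hdvd g with hh
    have hh0 : h ≠ 0 := by
      intro h0
      apply hg
      apply Fermat.Agent.Lib.Newform.H863.levelIncl_injective hdvd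
      rw [← hh, h0, map_zero]
    have hhT : ∀ (ℓ : ℕ) (hℓ : ℓ.Prime) (hℓM : ¬ ℓ ∣ N * p), ℓ ∉ (↑S : Set ℕ) →
        CuspForm.heckeTLin 2 hℓ hℓM h = ((W.apOfModel ℓ : ℤ) : ℂ) • h := by
      intro ℓ hℓ hℓM hℓS
      rw [hh, Fermat.Agent.Lib.Newform.H863.heckeTLin_levelIncl hdvd hℓ hℓM,
        hgT ℓ hℓ (fun hd => hℓM (hd.trans hdvd)) hℓS, map_smul]
    obtain ⟨f, hf, hfℓ⟩ :=
      Fermat.Agent.Lib.Newform.H863.exists_normalizedEigenform_of_eigenvector
        (↑S : Set ℕ) (fun ℓ => ((W.apOfModel ℓ : ℤ) : ℂ)) h hh0 hhT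
    refine ⟨f, hf, fun ℓ hℓ _ hℓN => hfℓ ℓ hℓ hℓN ?_⟩
    intro hℓS
    rcases hSN ℓ (Finset.mem_coe.mp hℓS) with h' | h'
    · exact hℓN (h' ▸ Dvd.intro_left N rfl)
    · exact hℓN (h'.trans hdvd)

end Fermat.Agent.S59.H7
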