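import Fermat.Agent.S59.H239.Top
import Fermat.Agent.S59.H7.EigenOfChar

/-!
# S59, top layer: E1 in the architecture's shape (helper7)

* `eigenformOfChar : H239.EigenformOfCharStatement`   (unconditional)
* `ml_of_rt : H239.RTStatement → H239.MLStatement`
* `s59_of_rt : H239.S58Statement → H239.RTStatement → H239.S59Statement`
-/

set_option autoImplicit false

namespace Fermat.Agent.S59.H7

/-- **E1**, unconditional. -/
theorem eigenformOfChar : Fermat.Agent.S59.H239.EigenformOfCharStatement :=
  fun W N _ S p hp hS hSN χ hχ => isModularModelOfLevel_of_intChar W N S p hp hS hSN χ hχ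

/-- (ML) from (RT) alone. -/
theorem ml_of_rt (hRT : Fermat.Agent.S59.H239.RTStatement) :
    Fermat.Agent.S59.H239.MLStatement :=
  Fermat.Agent.S59.H239.ml_of hRT eigenformOfChar

/-- S59 from S58 and (RT). -/
theorem s59_of_rt (h58 : Fermat.Agent.S59.H239.S58Statement)
    (hRT : Fermat.Agent.S59.H239.RTStatement) : Fermat.Agent.S59.H239.S59Statement :=
  Fermat.Agent.S59.H239.s59_of h58 (ml_of_rt hRT)

end Fermat.Agent.S59.H7
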